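import Fermat.Agent.RED.FF.Riemann
import Fermat.Agent.RR.Defs

/-!
Bridge: a function field with a separating parameter over an algebraically closed field (any
characteristic) satisfies the interface `RR.IsFF1` of the shared Riemann-Roch library.
-/

open AlgebraicCurve IntermediateField
open Fermat.Agent.S24

namespace Fermat.Agent.RED

variable {K F : Type*} [Field K] [Field F] [Algebra K F] {x : F}

namespace IsSepParam

theorem finrank_pos (hx : IsSepParam K x) : 0 < Module.finrank K⟮x⟯ F := by
  have := hx.finite
  exact Module.finrank_pos

theorem degree_polarDiv_pos [IsAlgClosed K] (hx : IsSepParam K x) :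
    0 < Divisor.degree (polarDiv K x) := by
  rw [hx.degree_polarDiv]
  exact_mod_cast hx.finrank_pos

theorem nonempty_place [IsAlgClosed K] (hx : IsSepParam K x) : Nonempty (Place K F) := by
  by_contra h
  rw [not_nonempty_iff] at h
  have h0 : polarDiv K x = 0 := Subsingleton.elim _ _
  have := hx.degree_polarDiv_pos
  rw [h0, map_zero] at this
  exact lt_irrefl _ this

theorem isFF1 [IsAlgClosed K] (hx : IsSepParam K x) : RR.IsFF1 K F where
  toHasPrincipalDivisors := hx.hasPrincipalDivisors
  residue_surjective v := (hx.bijective_algebraMap_residueField v).2
  nonempty_place := hx.nonempty_place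
  riemann_bound := by
    refine ⟨polarDiv K x, gR K F - 1, hx.degree_polarDiv_pos, fun l => ?_⟩
    have := hx.riemann_inequality (l • polarDiv K x)
    unfold ell at this
    linarith

end IsSepParam

end Fermat.Agent.RED
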