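import Fermat.Agent.RED.FF.Degree
import Fermat.Agent.RED.FF.IsFF1
import Fermat.Agent.RED.Deuring.Main

/-!
Adapter: the hypotheses `DeuringHyp` of Deuring's reduction of divisors follow from the
function-field library `RED/FF` on both fibres, the genus inequality `g ≤ gbar` and (ON).
-/

open AlgebraicCurve IntermediateField
open Fermat.Agent.S24

namespace Fermat.Agent.RED

variable {K F k Fb : Type*} [Field K] [Field F] [Algebra K F] [Field k] [Field Fb] [Algebra k Fb]

theorem LS_eq_riemannRochSpace (D : Divisor K F) : LS D = riemannRochSpace D := by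
  ext f
  rw [mem_LS, mem_L_iff]
  refine or_congr Iff.rfl (forall_congr' fun v => ?_)
  constructor <;> intro h <;> linarith

namespace IsSepParam

variable {x : F}

/-- `[F : K(h)] ≤ deg Y` if `(h) ≥ -Y`, `Y ≥ 0`. -/
theorem finrank_le_degree_of_le [IsAlgClosed K] (hx : IsSepParam K x) {h : F} {Y : Divisor K F}
    (hh : h ∉ Set.range (algebraMap K F)) (hY : ∀ v, 0 ≤ Y v)
    (hhY : ∀ v : Place K F, -(Y v) ≤ v.ord h) :
    FiniteDimensional K⟮h⟯ F ∧ (Module.finrank K⟮h⟯ F : ℤ) ≤ Divisor.degree Y := by
  have hp := hx.toIsFiniteParam.of_not_mem_range hh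
  refine ⟨hp.finite, ?_⟩
  rw [← hx.degree_polarDiv_eq hp]
  refine hx.degree_mono fun v => ?_
  rw [hx.polarDiv_apply]
  have := hhY v
  exact max_le (by linarith) (hY v)

/-- `deg Z ≤ [F : K(h)]` if `h` has a pole of order at least `Z v` at the points of `Z ≥ 0`. -/
theorem degree_le_finrank_of_le [IsAlgClosed K] (hx : IsSepParam K x) {h : F} {Z : Divisor K F}
    (hZ : ∀ v, 0 ≤ Z v) (hhZ : ∀ v : Place K F, 0 < Z v → v.ord h ≤ -(Z v)) :
    Divisor.degree Z ≤ (Module.finrank K⟮h⟯ F : ℤ) := by
  by_cases hh : h ∈ Set.range (algebraMap K F)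
  · obtain ⟨a, rfl⟩ := hh
    have : Z = 0 := by
      ext v
      refine le_antisymm ?_ (hZ v)
      by_contra hcon
      push Not at hcon
      have hcon' : 0 < Z v := hcon
      have := hhZ v hcon'
      rw [Place.ord_algebraMap] at this
      omega
    rw [this, map_zero]
    exact Int.natCast_nonneg _
  · have hp := hx.toIsFiniteParam.of_not_mem_range hh
    rw [← hx.degree_polarDiv_eq hp]
    refine hx.degree_mono fun v => ?_
    rw [hx.polarDiv_apply]
    rcases (hZ v).lt_or_eq with h1 | h1
    · have := hhZ v h1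
      exact le_max_of_le_left (by linarith)
    · rw [← h1]
      exact le_max_right _ _

end IsSepParam

/-- All hypotheses of Deuring's theory from the `RED/FF` library. -/
theorem exists_deuringHyp (R : RedData K F k Fb) [IsAlgClosed K] [IsAlgClosed k] {x : F}
    {xb : Fb} (hx : IsSepParam K x) (hxb : IsSepParam k xb) (hg : gR K F ≤ gR k Fb)
    (on : ∀ V : Submodule K F, FiniteDimensional K V →
      Module.finrank K V ≤ Module.finrank k (R.redSub V)) :
    ∃ c : ℤ, DeuringHyp R (gR K F) c := by
  obtain ⟨c₁, hc₁⟩ := hx.exists_riemann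
  obtain ⟨c₂, hc₂⟩ := hxb.exists_riemann
  refine ⟨max (max c₁ c₂) 0, ?_⟩
  exact
  { g_nonneg := hx.gR_nonneg
    c_nonneg := le_max_right _ _
    nonempty_top := hx.nonempty_place
    deg_top := hx.deg_eq_one
    hpd_top := hx.hasPrincipalDivisors
    finite_top := fun D => by
      rw [LS_eq_riemannRochSpace]; exact hx.finite_L D
    riemann_top := fun D hD => by
      rw [LS_eq_riemannRochSpace]
      exact hc₁ D (((le_max_left _ _).trans (le_max_left _ _)).trans hD)
    degree_le_top := fun h Y hh hY hhY => hx.finrank_le_degree_of_le hh hY hhY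
    infinite_bot := inferInstance
    deg_bot := hxb.deg_eq_one
    hpd_bot := hxb.hasPrincipalDivisors
    finite_bot := fun E => by
      rw [LS_eq_riemannRochSpace]; exact hxb.finite_L E
    le_succ_bot := fun E hE => by
      rw [LS_eq_riemannRochSpace]
      exact hxb.ell_le_degree_add_one' (by linarith)
    riemann_bot := fun E hE => by
      rw [LS_eq_riemannRochSpace]
      have := hc₂ E (((le_max_right _ _).trans (le_max_left _ _)).trans hE)
      unfold ell at this
      rw [this]
      linarith
    le_finrank_bot := fun h Z hZ hhZ _ => hxb.degree_le_finrank_of_le hZ hhZ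
    transcendental_bot := fun h hh => (hxb.toIsFiniteParam.of_not_mem_range hh).transcendental
    on := on }

end Fermat.Agent.RED
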