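import Fermat.Agent.RED.FF.Param
import Fermat.Prelude.Def_AlgebraicCurve_Repartitions

/-!
Riemann-Roch spaces of a function field in one variable over an algebraically closed field of
ANY characteristic (hypothesis: existence of a separating parameter `IsSepParam K x`).

We use the Prelude `AlgebraicCurve.riemannRochSpace D`.
-/

open AlgebraicCurve IsDedekindDomain IntermediateField
open Fermat.Agent.S24

namespace Fermat.Agent.RED

variable {K F : Type*} [Field K] [Field F] [Algebra K F] {x : F}

/-- The divisor of a function (junk value `0` if `ord f` does not have finite support). -/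
noncomputable def dv (K : Type*) {F : Type*} [Field K] [Field F] [Algebra K F] (f : F) :
    Divisor K F := by
  classical
  exact if h : {v : Place K F | v.ord f ≠ 0}.Finite then
    Finsupp.onFinset h.toFinset (fun v => v.ord f) (fun v hv => by simpa using hv) else 0

namespace IsSepParam

/-- Every proper valuation subring of `F` containing `K` is a place. -/
theorem exists_place_eq' (hx : IsSepParam K x) (O : ValuationSubring F)
    (hK : ∀ a : K, algebraMap K F a ∈ O) (hO : O ≠ ⊤) :
    ∃ v : Place K F, v.toValuationSubring = O := by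
  rcases O.mem_or_inv_mem x with h | h
  · exact hx.exists_place_eq O hK h hO
  · exact hx.inv.exists_place_eq O hK h hO

/-- A function without poles is constant. -/
theorem mem_range_of_forall_ord_nonneg [IsAlgClosed K] (hx : IsSepParam K x) {f : F}
    (hf : ∀ v : Place K F, 0 ≤ v.ord f) : f ∈ Set.range (algebraMap K F) := by
  by_contra hfK
  have hf0 : f ≠ 0 := fun h => hfK ⟨0, by rw [h, map_zero]⟩
  let R : Subring F := (algebraMap K F).range
  have : IsIntegrallyClosedIn R F := by
    rw [Subring.isIntegrallyClosedIn_iff]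
    intro z hz
    have hzK : IsIntegral K z := by
      obtain ⟨p, hp, hpz⟩ := hz
      have hsurj : Function.Surjective (algebraMap K F).rangeRestrict :=
        (algebraMap K F).rangeRestrict_surjective
      obtain ⟨q, hq, hqm⟩ := Polynomial.lifts_and_degree_eq_and_monic
        (f := (algebraMap K F).rangeRestrict) (p := p)
        ((Polynomial.mem_lifts p).2 (Polynomial.map_surjective _ hsurj p)) hp
      refine ⟨q, hqm.2, ?_⟩
      rw [← hq, Polynomial.eval₂_map] at hpz
      exact hpz
    exact minpoly.mem_range_of_degree_eq_one K z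
      (IsAlgClosed.degree_eq_one_of_irreducible K (minpoly.irreducible hzK))
  obtain ⟨V, hRV, hfV⟩ := Subring.exists_le_valuationSubring_of_isIntegrallyClosedIn
    (x := f) (R := R) (fun h => hfK h)
  have hV : V ≠ ⊤ := fun h => hfV (h ▸ ValuationSubring.mem_top f)
  obtain ⟨v, hv⟩ := hx.exists_place_eq' V (fun a => hRV ⟨a, rfl⟩) hV
  apply hfV
  rw [← hv, Place.mem_iff_ord_nonneg v hf0]
  exact hf v

/-- `ord f` has finite support. -/
theorem finite_support_ord (hx : IsSepParam K x) (f : F) :
    {v : Place K F | v.ord f ≠ 0}.Finite := by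
  rcases eq_or_ne f 0 with rfl | hf
  · simp
  have := hx.isFractionRing
  obtain ⟨a, b, hb, hab⟩ := IsFractionRing.div_surjective (A := intRing K x) f
  have hb0 : b ≠ 0 := nonZeroDivisors.ne_zero hb
  have ha0 : a ≠ 0 := by
    rintro rfl
    apply hf
    rw [← hab, map_zero, zero_div]
  refine ((hx.finite_poles.union
    ((hx.finite_primes_of_ne_zero ha0).image hx.place)).union
    ((hx.finite_primes_of_ne_zero hb0).image hx.place)).subset ?_
  intro v hv
  by_contra hcon
  simp only [Set.mem_union, not_or, Set.mem_ofPred_eq, not_lt, Set.mem_image, not_exists,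
    not_and] at hcon
  obtain ⟨⟨h1, h2⟩, h3⟩ := hcon
  have hxv : x ∈ v.toValuationSubring := (Place.mem_iff_ord_nonneg v hx.ne_zero).2 h1
  obtain ⟨w, rfl⟩ := hx.exists_eq_place v hxv
  have ha : a ∉ w.asIdeal := fun h => h2 w h rfl
  have hb : b ∉ w.asIdeal := fun h => h3 w h rfl
  apply hv
  have e1 := hx.ord_place_eq_zero w ha
  have e2 := hx.ord_place_eq_zero w hb
  have ha0' : (a : F) ≠ 0 := by simpa using ha0
  have hb0' : (b : F) ≠ 0 := by simpa using hb0
  have : f = (a : F) * (b : F)⁻¹ := by rw [← hab, div_eq_mul_inv]; rfl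
  rw [this, Place.ord_mul _ ha0' (inv_ne_zero hb0'), Place.ord_inv, e1, e2]
  simp

@[simp]
theorem dv_apply (hx : IsSepParam K x) (f : F) (v : Place K F) : dv K f v = v.ord f := by
  classical
  unfold dv
  rw [dif_pos (hx.finite_support_ord f)]
  rfl

theorem dv_mul (hx : IsSepParam K x) {f g : F} (hf : f ≠ 0) (hg : g ≠ 0) :
    dv K (f * g) = dv K f + dv K g := by
  ext v
  rw [Finsupp.add_apply, hx.dv_apply, hx.dv_apply, hx.dv_apply, v.ord_mul hf hg]

theorem dv_inv (hx : IsSepParam K x) (f : F) : dv K f⁻¹ = - dv K f := by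
  ext v
  rw [Finsupp.neg_apply, hx.dv_apply, hx.dv_apply, v.ord_inv]

theorem dv_one (hx : IsSepParam K x) : dv K (1 : F) = 0 := by
  ext v
  rw [hx.dv_apply, v.ord_one]; rfl

theorem dv_pow (hx : IsSepParam K x) (f : F) (n : ℕ) : dv K (f ^ n) = n • dv K f := by
  ext v
  rw [Finsupp.smul_apply, hx.dv_apply, hx.dv_apply, ← zpow_natCast, v.ord_zpow]
  simp

theorem dv_algebraMap (hx : IsSepParam K x) (a : K) : dv K (algebraMap K F a) = 0 := by
  ext v
  rw [hx.dv_apply, Place.ord_algebraMap]; rfl

theorem isPrincipal_dv (hx : IsSepParam K x) {f : F} (hf : f ≠ 0) :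
    Divisor.IsPrincipal (dv K f) :=
  ⟨f, hf, fun v => hx.dv_apply f v⟩

theorem eq_dv_of_isPrincipal (hx : IsSepParam K x) {D : Divisor K F}
    (hD : Divisor.IsPrincipal D) : ∃ f : F, f ≠ 0 ∧ D = dv K f := by
  obtain ⟨f, hf, h⟩ := hD
  exact ⟨f, hf, by ext v; rw [h v, hx.dv_apply]⟩

/-! ### Degrees -/

theorem degree_eq_sum [IsAlgClosed K] (hx : IsSepParam K x) (D : Divisor K F) :
    Divisor.degree D = ∑ v ∈ D.support, D v := by
  conv_lhs => rw [← Finsupp.sum_single D]
  rw [Finsupp.sum, map_sum]
  refine Finset.sum_congr rfl fun v _ => ?_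
  rw [Divisor.degree_single, hx.deg_eq_one v]
  simp

theorem degree_eq_sum_of_subset [IsAlgClosed K] (hx : IsSepParam K x) (D : Divisor K F)
    (S : Finset (Place K F)) (hS : D.support ⊆ S) :
    Divisor.degree D = ∑ v ∈ S, D v := by
  rw [hx.degree_eq_sum D]
  refine Finset.sum_subset hS ?_
  intro v _ hv
  simpa using hv

theorem degree_single [IsAlgClosed K] (hx : IsSepParam K x) (v : Place K F) (n : ℤ) :
    Divisor.degree (Finsupp.single v n) = n := by
  rw [Divisor.degree_single, hx.deg_eq_one v]
  simp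

theorem degree_nonneg [IsAlgClosed K] (hx : IsSepParam K x) {D : Divisor K F} (hD : 0 ≤ D) :
    0 ≤ Divisor.degree D := by
  rw [hx.degree_eq_sum]
  exact Finset.sum_nonneg fun v _ => hD v

theorem degree_mono [IsAlgClosed K] (hx : IsSepParam K x) {D D' : Divisor K F} (h : D ≤ D') :
    Divisor.degree D ≤ Divisor.degree D' := by
  have := hx.degree_nonneg (sub_nonneg.2 h)
  rw [map_sub] at this
  linarith

theorem eq_zero_of_degree_eq_zero [IsAlgClosed K] (hx : IsSepParam K x) {D : Divisor K F}
    (hD : 0 ≤ D) (h : Divisor.degree D = 0) : D = 0 := by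
  rw [hx.degree_eq_sum] at h
  have := (Finset.sum_eq_zero_iff_of_nonneg (fun v _ => hD v)).1 h
  ext v
  by_cases hv : v ∈ D.support
  · exact this v hv
  · simpa using hv

end IsSepParam

/-! ### Riemann-Roch spaces -/

/-- `ℓ(D)`. -/
noncomputable abbrev ell (D : Divisor K F) : ℕ := Module.finrank K (riemannRochSpace D)

theorem mem_L_iff {D : Divisor K F} {f : F} :
    f ∈ riemannRochSpace D ↔ f = 0 ∨ ∀ v : Place K F, 0 ≤ v.ord f + D v := by
  rw [mem_riemannRochSpace_iff, ← forall_or_left]
  refine forall_congr' fun v => or_congr Iff.rfl ?_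
  constructor <;> intro h <;> linarith

theorem mem_L_iff_of_ne_zero {D : Divisor K F} {f : F} (hf : f ≠ 0) :
    f ∈ riemannRochSpace D ↔ ∀ v : Place K F, 0 ≤ v.ord f + D v := by
  rw [mem_L_iff, or_iff_right hf]

theorem L_mono {D D' : Divisor K F} (h : D ≤ D') :
    riemannRochSpace D ≤ riemannRochSpace D' := by
  intro f hf
  rw [mem_L_iff] at hf ⊢
  refine hf.imp id fun hf v => ?_
  have := h v
  have := hf v
  linarith

/-- Linear algebra: a codimension `≤ 1` criterion. -/
theorem finrank_le_add_one_of_forall {V : Type*} [AddCommGroup V] [Module K V]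
    (W W' : Submodule K V) [Module.Finite K W]
    (h : ∀ f ∈ W', ∀ g ∈ W', g ∉ W → ∃ c : K, f - c • g ∈ W) :
    Module.Finite K W' ∧ Module.finrank K W' ≤ Module.finrank K W + 1 := by
  by_cases hW : W' ≤ W
  · have : Module.Finite K W' := Submodule.finiteDimensional_of_le hW
    exact ⟨this, (Submodule.finrank_mono hW).trans (Nat.le_succ _)⟩
  · obtain ⟨g, hg, hgW⟩ := SetLike.not_le_iff_exists.1 hW
    have hle : W' ≤ W ⊔ Submodule.span K {g} := by
      intro f hf
      obtain ⟨c, hc⟩ := h f hf g hg hgW
      have : f = (f - c • g) + c • g := by abel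
      rw [this]
      exact Submodule.add_mem_sup hc (Submodule.smul_mem _ _ (Submodule.mem_span_singleton_self g))
    have hfin : Module.Finite K W' := Submodule.finiteDimensional_of_le hle
    refine ⟨hfin, (Submodule.finrank_mono hle).trans ?_⟩
    refine (Submodule.finrank_add_le_finrank_add_finrank _ _).trans ?_
    have : Module.finrank K (Submodule.span K {g}) ≤ 1 := by
      simpa using finrank_span_le_card (R := K) ({g} : Set V)
    omega

namespace IsSepParam

theorem L_step [IsAlgClosed K] (hx : IsSepParam K x) (D : Divisor K F) (v : Place K F) {f g : F}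
    (hf : f ∈ riemannRochSpace (D + Finsupp.single v 1))
    (hg : g ∈ riemannRochSpace (D + Finsupp.single v 1)) (hgD : g ∉ riemannRochSpace D) :
    ∃ c : K, f - c • g ∈ riemannRochSpace D := by
  classical
  have hg0 : g ≠ 0 := fun h => hgD (h ▸ Submodule.zero_mem _)
  rcases eq_or_ne f 0 with rfl | hf0
  · exact ⟨0, by simp⟩
  rw [mem_L_iff_of_ne_zero hg0] at hg hgD
  have hf' := (mem_L_iff_of_ne_zero hf0).1 hf
  -- the order of `g` at `v`
  have hgv : v.ord g + D v = -1 := by
    push Not at hgD
    obtain ⟨w, hw⟩ := hgD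
    have h1 := hg w
    rw [Finsupp.add_apply] at h1
    by_cases hwv : w = v
    · subst hwv
      rw [Finsupp.single_eq_same] at h1
      omega
    · rw [Finsupp.single_eq_of_ne hwv] at h1
      omega
  have hfv := hf' v
  rw [Finsupp.add_apply, Finsupp.single_eq_same] at hfv
  have hq0 : f / g ≠ 0 := div_ne_zero hf0 hg0
  have hq : f / g ∈ v.toValuationSubring := by
    rw [Place.mem_iff_ord_nonneg v hq0, div_eq_mul_inv, v.ord_mul hf0 (inv_ne_zero hg0),
      v.ord_inv]
    omega
  obtain ⟨c, hc⟩ := hx.exists_value v hq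
  refine ⟨c, ?_⟩
  have hmem : f - c • g ∈ riemannRochSpace (D + Finsupp.single v 1) :=
    Submodule.sub_mem _ hf (Submodule.smul_mem _ _ ((mem_L_iff_of_ne_zero hg0).2 hg))
  have hfac : f - c • g = g * (f / g - algebraMap K F c) := by
    rw [Algebra.smul_def]; field_simp
  rcases hc with hc | hc
  · rw [hfac, hc, sub_self, mul_zero]; exact Submodule.zero_mem _
  · rcases eq_or_ne (f - c • g) 0 with h0 | h0
    · rw [h0]; exact Submodule.zero_mem _
    rw [mem_L_iff_of_ne_zero h0] at hmem ⊢
    intro w
    by_cases hwv : w = v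
    · subst hwv
      have h1 : f / g - algebraMap K F c ≠ 0 := by
        intro h; apply h0; rw [hfac, h, mul_zero]
      rw [hfac, w.ord_mul hg0 h1]
      omega
    · have := hmem w
      rwa [Finsupp.add_apply, Finsupp.single_eq_of_ne hwv, add_zero] at this

theorem L_zero [IsAlgClosed K] (hx : IsSepParam K x) :
    riemannRochSpace (0 : Divisor K F) = 1 := by
  ext f
  rw [Submodule.mem_one, mem_L_iff]
  constructor
  · rintro (rfl | h)
    · exact ⟨0, map_zero _⟩
    · exact hx.mem_range_of_forall_ord_nonneg (fun v => by simpa using h v)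
  · rintro ⟨a, rfl⟩
    right
    intro v
    rw [Place.ord_algebraMap]; simp

theorem finite_L_zero [IsAlgClosed K] (hx : IsSepParam K x) :
    Module.Finite K (riemannRochSpace (0 : Divisor K F)) := by
  rw [hx.L_zero, Submodule.one_eq_span]
  infer_instance

theorem ell_zero [IsAlgClosed K] (hx : IsSepParam K x) : ell (0 : Divisor K F) = 1 := by
  unfold ell
  rw [hx.L_zero, Submodule.one_eq_span]
  exact finrank_span_singleton one_ne_zero

theorem finite_and_le_aux [IsAlgClosed K] (hx : IsSepParam K x) (n : ℕ) :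
    ∀ A A' : Divisor K F, A ≤ A' → Divisor.degree (A' - A) = n →
      Module.Finite K (riemannRochSpace A) →
      Module.Finite K (riemannRochSpace A') ∧ ell A' ≤ ell A + n := by
  classical
  induction n with
  | zero =>
    intro A A' hle hdeg hfin
    have : A' - A = 0 := hx.eq_zero_of_degree_eq_zero (sub_nonneg.2 hle) (by simpa using hdeg)
    have : A' = A := sub_eq_zero.1 this
    subst this
    exact ⟨hfin, le_rfl⟩
  | succ n ih =>
    intro A A' hle hdeg hfin
    have hex : ∃ v, 0 < (A' - A) v := by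
      by_contra hcon
      push Not at hcon
      have h0 : A' - A = 0 := le_antisymm (fun v => hcon v) (sub_nonneg.2 hle)
      rw [h0, map_zero] at hdeg
      omega
    obtain ⟨v, hv⟩ := hex
    have hle' : A ≤ A' - Finsupp.single v 1 := by
      intro w
      rw [Finsupp.sub_apply] at hv ⊢
      by_cases hwv : w = v
      · subst hwv
        rw [Finsupp.single_eq_same]; omega
      · rw [Finsupp.single_eq_of_ne hwv, sub_zero]; exact hle w
    have hdeg' : Divisor.degree (A' - Finsupp.single v 1 - A) = n := by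
      have : A' - Finsupp.single v 1 - A = (A' - A) - Finsupp.single v 1 := by abel
      rw [this, map_sub, hdeg, hx.degree_single]
      push_cast; ring
    obtain ⟨hfin', hl⟩ := ih A (A' - Finsupp.single v 1) hle' hdeg' hfin
    have hA' : A' = (A' - Finsupp.single v 1) + Finsupp.single v 1 := by abel
    have := finrank_le_add_one_of_forall (riemannRochSpace (A' - Finsupp.single v 1))
      (riemannRochSpace A') (fun f hf g hg hgD => by
        rw [hA'] at hf hg
        exact hx.L_step _ v hf hg hgD)
    refine ⟨this.1, ?_⟩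
    have h2 := this.2
    unfold ell at hl ⊢
    omega

/-- All Riemann-Roch spaces are finite-dimensional. -/
theorem finite_L [IsAlgClosed K] (hx : IsSepParam K x) (D : Divisor K F) :
    Module.Finite K (riemannRochSpace D) := by
  have h0 : (0 : Divisor K F) ≤ D ⊔ 0 := le_sup_right
  have hd := hx.degree_nonneg (sub_nonneg.2 h0)
  obtain ⟨n, hn⟩ := Int.eq_ofNat_of_zero_le hd
  have := (hx.finite_and_le_aux n 0 (D ⊔ 0) h0 hn hx.finite_L_zero).1
  exact Submodule.finiteDimensional_of_le (L_mono (le_sup_left : D ≤ D ⊔ 0))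

theorem ell_mono [IsAlgClosed K] (hx : IsSepParam K x) {A A' : Divisor K F} (h : A ≤ A') :
    ell A ≤ ell A' := by
  have := hx.finite_L A'
  exact Submodule.finrank_mono (L_mono h)

/-- `ℓ(A') ≤ ℓ(A) + deg (A' - A)` for `A ≤ A'`. -/
theorem ell_le_of_le [IsAlgClosed K] (hx : IsSepParam K x) {A A' : Divisor K F} (h : A ≤ A') :
    (ell A' : ℤ) ≤ ell A + (Divisor.degree A' - Divisor.degree A) := by
  have hd := hx.degree_nonneg (sub_nonneg.2 h)
  obtain ⟨n, hn⟩ := Int.eq_ofNat_of_zero_le hd
  have := (hx.finite_and_le_aux n A A' h hn (hx.finite_L A)).2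
  rw [map_sub] at hn
  rw [hn]
  exact_mod_cast this

theorem ell_le_degree_add_one [IsAlgClosed K] (hx : IsSepParam K x) {D : Divisor K F}
    (hD : 0 ≤ D) : (ell D : ℤ) ≤ Divisor.degree D + 1 := by
  have := hx.ell_le_of_le hD
  rw [hx.ell_zero, map_zero] at this
  push_cast at this
  linarith

theorem mul_mem_L_iff (hx : IsSepParam K x) {z : F} (hz : z ≠ 0) (A : Divisor K F) (f : F) :
    z * f ∈ riemannRochSpace A ↔ f ∈ riemannRochSpace (A + dv K z) := by
  rcases eq_or_ne f 0 with rfl | hf
  · simp
  rw [mem_L_iff_of_ne_zero hf, mem_L_iff_of_ne_zero (mul_ne_zero hz hf)]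
  refine forall_congr' fun v => ?_
  rw [v.ord_mul hz hf, Finsupp.add_apply, hx.dv_apply]
  constructor <;> intro h <;> linarith

/-- `ℓ(A + div z) = ℓ(A)`. -/
theorem ell_add_dv (hx : IsSepParam K x) {z : F} (hz : z ≠ 0) (A : Divisor K F) :
    ell (A + dv K z) = ell A := by
  let e : F ≃ₗ[K] F := LinearEquiv.ofLinearMap (LinearMap.mulLeft K z) (LinearMap.mulLeft K z⁻¹)
    (by ext f; simp [hz]) (by ext f; simp [hz])
  have : (riemannRochSpace (A + dv K z)).map (e : F →ₗ[K] F) = riemannRochSpace A := by
    ext f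
    rw [Submodule.mem_map]
    constructor
    · rintro ⟨g, hg, rfl⟩
      exact (hx.mul_mem_L_iff hz A g).2 hg
    · intro hf
      refine ⟨z⁻¹ * f, (hx.mul_mem_L_iff hz A _).1 ?_, ?_⟩
      · rwa [mul_inv_cancel_left₀ hz]
      · show z * (z⁻¹ * f) = f
        rw [mul_inv_cancel_left₀ hz]
  unfold ell
  rw [← this]
  exact (LinearEquiv.finrank_map_eq e _).symm

theorem ell_sub_dv (hx : IsSepParam K x) {z : F} (hz : z ≠ 0) (A : Divisor K F) :
    ell (A - dv K z) = ell A := by
  rw [sub_eq_add_neg, ← hx.dv_inv, hx.ell_add_dv (inv_ne_zero hz)]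

end IsSepParam

end Fermat.Agent.RED
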