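import Fermat.Agent.RED.FF.Riemann
import Fermat.Agent.S24.FF.Principal

/-!
`deg (y)_∞ = [F : K(y)]` for EVERY nonconstant `y` of a function field in one variable over an
algebraically closed field of any characteristic (no separability assumption on `y`).
-/

open AlgebraicCurve IsDedekindDomain IntermediateField
open scoped IntermediateField.algebraAdjoinAdjoin
open Fermat.Agent.S24

namespace Fermat.Agent.RED

variable {K F : Type*} [Field K] [Field F] [Algebra K F] {x y : F}

/-- Linear algebra: a codimension `≤ n` criterion. -/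
theorem finrank_le_add_of_forall {V : Type*} [AddCommGroup V] [Module K V]
    (W W' : Submodule K V) [Module.Finite K W'] (hle : W ≤ W') (n : ℕ)
    (h : ∀ h : Fin (n + 1) → V, (∀ i, h i ∈ W') →
      ∃ c : Fin (n + 1) → K, c ≠ 0 ∧ ∑ i, c i • h i ∈ W) :
    Module.finrank K W' ≤ Module.finrank K W + n := by
  let π : W' →ₗ[K] V ⧸ W := W.mkQ ∘ₗ W'.subtype
  have h1 := LinearMap.finrank_range_add_finrank_ker π
  have hker : LinearMap.ker π = W.comap W'.subtype := by
    rw [LinearMap.ker_comp, Submodule.ker_mkQ]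
  have h2 : Module.finrank K (LinearMap.ker π) = Module.finrank K W := by
    rw [hker]
    exact (Submodule.comapSubtypeEquivOfLe hle).finrank_eq
  have h3 : Module.finrank K (LinearMap.range π) ≤ n := by
    by_contra hcon
    obtain ⟨f, hf⟩ := exists_linearIndependent_of_le_finrank
      (R := K) (M := LinearMap.range π) (n := n + 1) (by omega)
    choose g hg using fun i => (f i).2
    obtain ⟨c, hc0, hc⟩ := h (fun i => (g i : V)) (fun i => (g i).2)
    apply hc0
    rw [Fintype.linearIndependent_iff] at hf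
    funext i
    refine hf c ?_ i
    apply Subtype.ext
    rw [Submodule.coe_sum, Submodule.coe_zero]
    have : ∀ i, ((c i • f i : LinearMap.range π) : V ⧸ W) = W.mkQ (c i • (g i : V)) := by
      intro i
      rw [Submodule.coe_smul, ← hg i, map_smul]
      rfl
    simp only [this]
    rw [← map_sum, Submodule.mkQ_apply, Submodule.Quotient.mk_eq_zero]
    exact hc
  omega

theorem exists_poly_relation (hy : IsFiniteParam K y)
    (h : Fin (Module.finrank K⟮y⟯ F + 1) → F) :
    ∃ p : Fin (Module.finrank K⟮y⟯ F + 1) → Polynomial K,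
      (∃ i, p i ≠ 0) ∧ ∑ i, Polynomial.aeval y (p i) * h i = 0 := by
  have := hy.finite
  have h1 : ¬ LinearIndependent K⟮y⟯ h := by
    intro hli
    have := hli.fintype_card_le_finrank
    simp at this
  rw [← LinearIndependent.iff_fractionRing (R := polyRing K y) (K := K⟮y⟯),
    Fintype.not_linearIndependent_iff] at h1
  obtain ⟨g, hg, i₀, hi₀⟩ := h1
  have hex : ∀ i, ∃ p : Polynomial K, Polynomial.aeval y p = (g i : F) := by
    intro i
    have : (g i : F) ∈ Algebra.adjoin K {y} := (g i).2
    rw [Algebra.adjoin_singleton_eq_range_aeval] at this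
    exact this
  choose p hp using hex
  refine ⟨p, ⟨i₀, ?_⟩, ?_⟩
  · intro h0
    apply hi₀
    apply Subtype.ext
    rw [← hp i₀, h0, map_zero]
    rfl
  · rw [← hg]
    refine Finset.sum_congr rfl fun i _ => ?_
    rw [hp i]
    rfl

namespace IsSepParam

theorem sum_range_mem_L (hx : IsSepParam K x) (y : F) (d : ℕ) (a : ℕ → K) :
    ∑ k ∈ Finset.range d, a k • y ^ k ∈ riemannRochSpace ((d - 1) • polarDiv K y) := by
  refine Submodule.sum_mem _ fun k hk => Submodule.smul_mem _ _ ?_
  rw [Finset.mem_range] at hk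
  exact L_mono (nsmul_le_nsmul_left (polarDiv_nonneg y) (by omega))
    (pow_mem_L (hx.mem_L_polarDiv y) k)

theorem ell_succ_nsmul_polarDiv_le [IsAlgClosed K] (hx : IsSepParam K x)
    (hy : IsFiniteParam K y) (l : ℕ) :
    ell ((l + 1) • polarDiv K y) ≤ ell (l • polarDiv K y) + Module.finrank K⟮y⟯ F := by
  classical
  have := hx.finite_L ((l + 1) • polarDiv K y)
  refine finrank_le_add_of_forall _ _
    (L_mono (nsmul_le_nsmul_left (polarDiv_nonneg y) (Nat.le_succ l))) _ ?_
  intro h hh
  obtain ⟨p, ⟨i₀, hi₀⟩, hp⟩ := exists_poly_relation hy h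
  obtain ⟨i₁, -, hi₁⟩ := Finset.exists_max_image Finset.univ (fun i => (p i).degree)
    ⟨i₀, Finset.mem_univ i₀⟩
  have hpi₁ : p i₁ ≠ 0 := by
    intro h0
    have := hi₁ i₀ (Finset.mem_univ _)
    rw [h0, Polynomial.degree_zero, le_bot_iff, Polynomial.degree_eq_bot] at this
    exact hi₀ this
  set d := (p i₁).natDegree with hd
  have hdeg : ∀ i, (p i).natDegree < d + 1 := fun i =>
    Nat.lt_succ_of_le (Polynomial.natDegree_le_natDegree (hi₁ i (Finset.mem_univ _)))
  refine ⟨fun i => (p i).coeff d, ?_, ?_⟩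
  · intro h0
    have := congrFun h0 i₁
    simp only [Pi.zero_apply] at this
    rw [hd, Polynomial.coeff_natDegree, Polynomial.leadingCoeff_eq_zero] at this
    exact hpi₁ this
  -- the element `h' = ∑ c_i h_i`
  set h' := ∑ i, (p i).coeff d • h i with hh'
  have hh'mem : h' ∈ riemannRochSpace ((l + 1) • polarDiv K y) :=
    Submodule.sum_mem _ fun i _ => Submodule.smul_mem _ _ (hh i)
  have haeval : ∀ i, Polynomial.aeval y (p i) =
      ∑ k ∈ Finset.range d, (p i).coeff k • y ^ k + (p i).coeff d • y ^ d := by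
    intro i
    conv_lhs => rw [(p i).as_sum_range' (d + 1) (hdeg i)]
    rw [map_sum, Finset.sum_range_succ]
    simp only [Polynomial.aeval_monomial, Algebra.smul_def]
  have hkey : y ^ d * h' = - ∑ i, (∑ k ∈ Finset.range d, (p i).coeff k • y ^ k) * h i := by
    rw [eq_neg_iff_add_eq_zero, ← hp, hh', Finset.mul_sum, ← Finset.sum_add_distrib]
    refine Finset.sum_congr rfl fun i _ => ?_
    rw [haeval i, Algebra.smul_def, Algebra.smul_def]
    ring
  have hmem2 : y ^ d * h' ∈
      riemannRochSpace ((d - 1) • polarDiv K y + (l + 1) • polarDiv K y) := by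
    rw [hkey]
    exact Submodule.neg_mem _ (Submodule.sum_mem _ fun i _ =>
      mul_mem_L (hx.sum_range_mem_L y d _) (hh i))
  rcases eq_or_ne h' 0 with h0 | h0
  · rw [h0]; exact Submodule.zero_mem _
  have hy0 := hy.ne_zero
  rw [mem_L_iff_of_ne_zero h0] at hh'mem ⊢
  rw [mem_L_iff_of_ne_zero (mul_ne_zero (pow_ne_zero _ hy0) h0)] at hmem2
  intro v
  have e1 := hh'mem v
  have e2 := hmem2 v
  rw [Finsupp.smul_apply, hx.polarDiv_apply] at e1 ⊢
  rw [Finsupp.add_apply, Finsupp.smul_apply, Finsupp.smul_apply, hx.polarDiv_apply,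
    v.ord_mul (pow_ne_zero _ hy0) h0, ← zpow_natCast, v.ord_zpow] at e2
  simp only [nsmul_eq_mul] at e1 e2 ⊢
  rcases le_or_gt 0 (v.ord y) with hv | hv
  · rw [max_eq_right (by omega)] at e1 ⊢
    simpa using e1
  · rw [max_eq_left (by omega)] at e1 e2 ⊢
    rcases Nat.eq_zero_or_pos d with hd0 | hd0
    · exfalso
      apply h0
      rw [hd0] at hkey
      simpa using hkey
    · have : ((d - 1 : ℕ) : ℤ) = (d : ℤ) - 1 := by
        rw [Nat.cast_sub hd0]; simp
      rw [this] at e2
      push_cast at e2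
      nlinarith

theorem ell_nsmul_polarDiv_le [IsAlgClosed K] (hx : IsSepParam K x)
    (hy : IsFiniteParam K y) (l : ℕ) :
    ell (l • polarDiv K y) ≤ 1 + l * Module.finrank K⟮y⟯ F := by
  induction l with
  | zero => rw [zero_smul, hx.ell_zero]; simp
  | succ l ih =>
    have := hx.ell_succ_nsmul_polarDiv_le hy l
    have e : 1 + (l + 1) * Module.finrank K⟮y⟯ F =
      1 + l * Module.finrank K⟮y⟯ F + Module.finrank K⟮y⟯ F := by ring
    omega

/-- `deg (y)_∞ = [F : K(y)]` for every nonconstant `y`. -/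
theorem degree_polarDiv_eq [IsAlgClosed K] (hx : IsSepParam K x) (hy : IsFiniteParam K y) :
    Divisor.degree (polarDiv K y) = (Module.finrank K⟮y⟯ F : ℤ) := by
  apply le_antisymm
  · by_contra hcon
    push Not at hcon
    have hg := hx.gR_nonneg
    obtain ⟨l, hl⟩ := Int.eq_ofNat_of_zero_le (by omega : 0 ≤ gR K F + 1)
    have h1 := hx.riemann_inequality (l • polarDiv K y)
    have h2 : (ell (l • polarDiv K y) : ℤ) ≤ 1 + l * Module.finrank K⟮y⟯ F := by
      exact_mod_cast hx.ell_nsmul_polarDiv_le hy l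
    rw [map_nsmul, nsmul_eq_mul] at h1
    have hl' : (l : ℤ) = gR K F + 1 := hl.symm
    nlinarith
  · by_contra hcon
    push Not at hcon
    obtain ⟨C, hC0, hC⟩ := hx.exists_lower_bound hy
    have hdC := hx.degree_nonneg hC0
    obtain ⟨l, hl⟩ := Int.eq_ofNat_of_zero_le (by omega : 0 ≤ Divisor.degree C + 2)
    have h1 : (((l + 1) * Module.finrank K⟮y⟯ F : ℕ) : ℤ) ≤ ell (l • polarDiv K y + C) := by
      exact_mod_cast hC l
    have h2 := hx.ell_le_degree_add_one
      (add_nonneg (nsmul_nonneg (polarDiv_nonneg y) l) hC0)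
    rw [map_add, map_nsmul, nsmul_eq_mul] at h2
    push_cast at h1
    have hl' : (l : ℤ) = Divisor.degree C + 2 := hl.symm
    have hn : (0 : ℤ) ≤ Module.finrank K⟮y⟯ F := Int.natCast_nonneg _
    nlinarith

/-- `deg (y)_∞ = [F : K(y)]` for every nonconstant `y`. -/
theorem degree_polarDiv_of_not_mem_range [IsAlgClosed K] (hx : IsSepParam K x)
    (hy : y ∉ Set.range (algebraMap K F)) :
    Divisor.degree (polarDiv K y) = (Module.finrank K⟮y⟯ F : ℤ) :=
  hx.degree_polarDiv_eq (hx.toIsFiniteParam.of_not_mem_range hy)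

/-- `deg (y)_0 = [F : K(y)]` for every nonconstant `y`. -/
theorem degree_polarDiv_inv [IsAlgClosed K] (hx : IsSepParam K x) (hy : IsFiniteParam K y) :
    Divisor.degree (polarDiv K y⁻¹) = (Module.finrank K⟮y⟯ F : ℤ) := by
  rw [hx.degree_polarDiv_eq hy.inv, IsFiniteParam.finrank_inv]

end IsSepParam

end Fermat.Agent.RED
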