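import Fermat.Agent.RED.FF.IsFF1

/-!
Non-special systems of points, in any characteristic, without differentials:
for every `n ≤ g` and every finite set `T` of places there are `n` distinct places
`Q_1, …, Q_n` outside `T` with `L(Q_1 + ⋯ + Q_n) = K`.
-/

open AlgebraicCurve IntermediateField
open Fermat.Agent.S24

namespace Fermat.Agent.RED

variable {K F : Type*} [Field K] [Field F] [Algebra K F] {x : F}

/-- The reduced divisor `∑_{v ∈ S} v`. -/
noncomputable def sumPts (S : Finset (Place K F)) : Divisor K F := ∑ v ∈ S, Finsupp.single v 1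

open Classical in
theorem sumPts_apply (S : Finset (Place K F)) (v : Place K F) :
    sumPts S v = if v ∈ S then 1 else 0 := by
  unfold sumPts
  rw [Finsupp.finsetSum_apply]
  simp only [Finsupp.single_apply]
  rw [Finset.sum_ite_eq']

theorem sumPts_nonneg (S : Finset (Place K F)) : 0 ≤ sumPts S :=
  Finset.sum_nonneg fun v _ => by
    classical
    intro w
    rw [Finsupp.single_apply]
    split_ifs <;> simp

open Classical in
theorem sumPts_insert {S : Finset (Place K F)} {v : Place K F} (hv : v ∉ S) :
    sumPts (insert v S) = sumPts S + Finsupp.single v 1 := by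
  unfold sumPts
  rw [Finset.sum_insert hv, add_comm]

@[simp]
theorem sumPts_empty : sumPts (∅ : Finset (Place K F)) = 0 := rfl

namespace IsSepParam

theorem degree_sumPts [IsAlgClosed K] (hx : IsSepParam K x) (S : Finset (Place K F)) :
    Divisor.degree (sumPts S) = S.card := by
  unfold sumPts
  rw [map_sum]
  simp [hx.degree_single]

/-- There are infinitely many places. -/
theorem infinite_place [IsAlgClosed K] (hx : IsSepParam K x) : Infinite (Place K F) := by
  have hex : ∀ c : K, ∃ v : Place K F, 0 < v.ord (x - algebraMap K F c) := by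
    intro c
    by_contra hcon
    push Not at hcon
    have h1 := hx.sum_fibre c
    have h2 : (hx.finite_fibre c).toFinset = ∅ := by
      ext v
      simp only [Set.Finite.mem_toFinset, Set.mem_ofPred_eq, Finset.notMem_empty, iff_false,
        not_lt]
      exact hcon v
    rw [h2, Finset.sum_empty] at h1
    have := hx.finrank_pos
    omega
  choose p hp using hex
  refine Infinite.of_injective p ?_
  intro c c' hcc
  by_contra hne
  have h1 := hp c
  have h2 := hp c'
  rw [← hcc] at h2
  have hy := (hx.sub_const c).ne_zero
  have hy' := (hx.sub_const c').ne_zero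
  have hd : (x - algebraMap K F c') + -(x - algebraMap K F c) = algebraMap K F (c - c') := by
    rw [map_sub]; ring
  have hd0 : algebraMap K F (c - c') ≠ 0 :=
    (map_ne_zero (algebraMap K F)).2 (sub_ne_zero.2 hne)
  have h3 := Place.ord_add_ge (p c) hy' (neg_ne_zero.2 hy) (by rw [hd]; exact hd0)
  rw [hd, Place.ord_algebraMap, Place.ord_neg] at h3
  have := lt_min h2 h1
  omega

/-- If `L(A + v) ≠ L(A)` for all `v ∈ S` then `ℓ(A + ∑_{v ∈ S} v) ≥ ℓ(A) + #S`. -/
theorem ell_add_card_le [IsAlgClosed K] (hx : IsSepParam K x) (A : Divisor K F)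
    (S : Finset (Place K F))
    (hS : ∀ v ∈ S, ¬ riemannRochSpace (A + Finsupp.single v 1) ≤ riemannRochSpace A) :
    ell A + S.card ≤ ell (A + sumPts S) := by
  classical
  induction S using Finset.induction_on with
  | empty => simp
  | insert v S hv ih =>
    have ih' := ih fun w hw => hS w (Finset.mem_insert_of_mem hw)
    obtain ⟨f, hf, hfA⟩ := SetLike.not_le_iff_exists.1 (hS v (Finset.mem_insert_self v S))
    have hf0 : f ≠ 0 := fun h => hfA (h ▸ Submodule.zero_mem _)
    rw [sumPts_insert hv, Finset.card_insert_of_notMem hv]
    have hle : A + sumPts S ≤ A + (sumPts S + Finsupp.single v 1) := by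
      rw [← add_assoc]
      refine le_add_of_nonneg_right ?_
      intro w
      rw [Finsupp.single_apply]
      split_ifs <;> simp
    have hfin := hx.finite_L (A + (sumPts S + Finsupp.single v 1))
    have hlt : riemannRochSpace (A + sumPts S) <
        riemannRochSpace (A + (sumPts S + Finsupp.single v 1)) := by
      refine lt_of_le_of_ne (L_mono hle) ?_
      intro heq
      have h1 : f ∈ riemannRochSpace (A + (sumPts S + Finsupp.single v 1)) := by
        refine L_mono ?_ hf
        have : A + (sumPts S + Finsupp.single v 1) = A + Finsupp.single v 1 + sumPts S := by abel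
        rw [this]
        exact le_add_of_nonneg_right (sumPts_nonneg S)
      rw [← heq] at h1
      apply hfA
      rw [mem_L_iff_of_ne_zero hf0] at h1 hf ⊢
      intro w
      by_cases hwv : w = v
      · subst hwv
        have := h1 w
        rwa [Finsupp.add_apply, sumPts_apply, if_neg hv, add_zero] at this
      · have := hf w
        rwa [Finsupp.add_apply, Finsupp.single_eq_of_ne hwv, add_zero] at this
    have := Submodule.finrank_lt_finrank_of_lt hlt
    unfold ell at ih' ⊢
    omega

/-- If `A` is special then `L(A + v) = L(A)` for all but finitely many places `v`. -/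
theorem finite_setOf_not_L_le [IsAlgClosed K] (hx : IsSepParam K x) {A : Divisor K F}
    (hA : Divisor.degree A + 1 - gR K F < ell A) :
    {v : Place K F |
      ¬ riemannRochSpace (A + Finsupp.single v 1) ≤ riemannRochSpace A}.Finite := by
  by_contra hinf
  obtain ⟨c, hc⟩ := hx.exists_riemann
  obtain ⟨S, hS, hcard⟩ := (Set.not_finite.1 hinf).exists_subset_card_eq
    (c - Divisor.degree A).toNat
  have h1 := hx.ell_add_card_le A S fun v hv => hS hv
  have h2 := hc (A + sumPts S) (by
    rw [map_add, hx.degree_sumPts, hcard]
    have := Int.self_le_toNat (c - Divisor.degree A)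
    linarith)
  rw [map_add, hx.degree_sumPts] at h2
  have h1' : (ell A : ℤ) + S.card ≤ ell (A + sumPts S) := by exact_mod_cast h1
  linarith

/-- Existence of non-special systems of `n ≤ g` distinct points avoiding a finite set. -/
theorem exists_nonSpecial_finset [IsAlgClosed K] (hx : IsSepParam K x) (T : Finset (Place K F))
    (n : ℕ) (hn : (n : ℤ) ≤ gR K F) :
    ∃ S : Finset (Place K F), S.card = n ∧ Disjoint S T ∧ ell (sumPts S) = 1 := by
  classical
  induction n with
  | zero => exact ⟨∅, rfl, Finset.disjoint_empty_left _, by simpa using hx.ell_zero⟩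
  | succ n ih =>
    obtain ⟨S, hcard, hdisj, hell⟩ := ih (by push_cast at hn; linarith)
    have hfin := hx.finite_setOf_not_L_le (A := sumPts S) (by
      rw [hx.degree_sumPts, hcard, hell]
      push_cast at hn ⊢
      linarith)
    have := hx.infinite_place
    obtain ⟨v, hv⟩ := Set.Infinite.nonempty
      ((Set.infinite_univ (α := Place K F)).sdiff
        ((hfin.union S.finite_toSet).union T.finite_toSet))
    simp only [Set.mem_sdiff, Set.mem_univ, true_and, Set.mem_union, not_or, Set.mem_ofPred_eq,
      not_not, Finset.mem_coe] at hv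
    obtain ⟨⟨hv1, hv2⟩, hv3⟩ := hv
    refine ⟨insert v S, ?_, ?_, ?_⟩
    · rw [Finset.card_insert_of_notMem hv2, hcard]
    · rw [Finset.disjoint_insert_left]
      exact ⟨hv3, hdisj⟩
    · rw [sumPts_insert hv2]
      have hfinL := hx.finite_L (sumPts S)
      have h1 : ell (sumPts S + Finsupp.single v 1) ≤ ell (sumPts S) :=
        Submodule.finrank_mono hv1
      have h2 : ell (sumPts S) ≤ ell (sumPts S + Finsupp.single v 1) :=
        hx.ell_mono (le_add_of_nonneg_right (by
          intro w
          rw [Finsupp.single_apply]
          split_ifs <;> simp))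
      omega

/-- `ℓ(A) = 1`, `A ≥ 0` implies `L(A) = K`. -/
theorem mem_range_of_ell_eq_one [IsAlgClosed K] (hx : IsSepParam K x) {A : Divisor K F}
    (hA : 0 ≤ A) (hell : ell A = 1) {f : F} (hf : f ∈ riemannRochSpace A) :
    f ∈ Set.range (algebraMap K F) := by
  have hfin := hx.finite_L A
  have : riemannRochSpace (0 : Divisor K F) = riemannRochSpace A :=
    Submodule.eq_of_le_of_finrank_eq (L_mono hA) (by
      have := hx.ell_zero
      unfold ell at this hell
      rw [this, hell])
  rw [← this, hx.L_zero, Submodule.mem_one] at hf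
  exact hf

open Classical in
/-- Non-special points, in the shape used by `isPrincipal_of_torsion`. -/
theorem exists_nonSpecial [IsAlgClosed K] (hx : IsSepParam K x) (T : Finset (Place K F))
    (n : ℕ) (hn : (n : ℤ) ≤ gR K F) :
    ∃ Q : Fin n → Place K F, Function.Injective Q ∧ (∀ i, Q i ∉ T) ∧
      ∀ φ : F, (∀ P : Place K F, -(if P ∈ Set.range Q then 1 else 0 : ℤ) ≤ P.ord φ) →
        φ ∈ Set.range (algebraMap K F) := by
  obtain ⟨S, hcard, hdisj, hell⟩ := hx.exists_nonSpecial_finset T n hn
  let e := (Finset.equivFinOfCardEq hcard).symm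
  have hrange : ∀ P, P ∈ Set.range (fun i => (e i : Place K F)) ↔ P ∈ S := by
    intro P
    constructor
    · rintro ⟨i, rfl⟩
      exact (e i).2
    · intro hP
      exact ⟨e.symm ⟨P, hP⟩, by simp⟩
  refine ⟨fun i => (e i : Place K F), Subtype.val_injective.comp e.injective, fun i => ?_, ?_⟩
  · exact Finset.disjoint_left.1 hdisj (e i).2
  · intro φ hφ
    refine hx.mem_range_of_ell_eq_one (sumPts_nonneg S) hell ?_
    rw [mem_L_iff]
    right
    intro P
    have := hφ P
    rw [sumPts_apply]
    by_cases hP : P ∈ S
    · rw [if_pos ((hrange P).2 hP)] at this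
      rw [if_pos hP]
      linarith
    · rw [if_neg (fun h => hP ((hrange P).1 h))] at this
      rw [if_neg hP]
      linarith

end IsSepParam

end Fermat.Agent.RED
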