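import Fermat.Agent.RED.FF.LSpace

/-!
Riemann's theorem for a function field in one variable over an algebraically closed field of
ANY characteristic: Riemann's inequality, the genus `gR`, principal divisors have degree `0`,
`ℓ(A) = deg A + 1 - gR` for `deg A` large.
-/

open AlgebraicCurve IsDedekindDomain IntermediateField
open Fermat.Agent.S24

namespace Fermat.Agent.RED

variable {K F : Type*} [Field K] [Field F] [Algebra K F] {x : F}

/-- The polar divisor of a function. -/
noncomputable def polarDiv (K : Type*) {F : Type*} [Field K] [Field F] [Algebra K F] (f : F) :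
    Divisor K F := (- dv K f) ⊔ 0

theorem polarDiv_nonneg (f : F) : 0 ≤ polarDiv K f := le_sup_right

theorem one_mem_L_zero : (1 : F) ∈ riemannRochSpace (0 : Divisor K F) := by
  rw [mem_L_iff]
  right
  intro v
  simp

theorem mul_mem_L {A A' : Divisor K F} {f g : F} (hf : f ∈ riemannRochSpace A)
    (hg : g ∈ riemannRochSpace A') : f * g ∈ riemannRochSpace (A + A') := by
  rcases eq_or_ne f 0 with rfl | hf0
  · simp
  rcases eq_or_ne g 0 with rfl | hg0
  · simp
  rw [mem_L_iff_of_ne_zero hf0] at hf
  rw [mem_L_iff_of_ne_zero hg0] at hg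
  rw [mem_L_iff_of_ne_zero (mul_ne_zero hf0 hg0)]
  intro v
  rw [v.ord_mul hf0 hg0, Finsupp.add_apply]
  have := hf v
  have := hg v
  linarith

theorem pow_mem_L {A : Divisor K F} {f : F} (hf : f ∈ riemannRochSpace A) (n : ℕ) :
    f ^ n ∈ riemannRochSpace (n • A) := by
  induction n with
  | zero => simpa using one_mem_L_zero
  | succ n ih =>
    rw [pow_succ, succ_nsmul]
    exact mul_mem_L ih hf

theorem linearIndependent_pow_of_transc {A : Type*} [CommRing A] [Algebra K A] (x : A)
    (hx : Transcendental K x) : LinearIndependent K (fun a : ℕ => x ^ a) := by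
  have hinj : Function.Injective (Polynomial.aeval (R := K) x) :=
    transcendental_iff_injective.1 hx
  have h := (Polynomial.basisMonomials K).linearIndependent.map'
    (Polynomial.aeval (R := K) x).toLinearMap (LinearMap.ker_eq_bot.2 hinj)
  have he : (fun a : ℕ => x ^ a) =
      (Polynomial.aeval (R := K) x).toLinearMap ∘ (Polynomial.basisMonomials K) := by
    ext a
    simp
  rw [he]
  exact h

namespace IsSepParam

theorem polarDiv_apply (hx : IsSepParam K x) (f : F) (v : Place K F) :
    polarDiv K f v = max (- v.ord f) 0 := by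
  unfold polarDiv
  rw [Finsupp.sup_apply, Finsupp.neg_apply, hx.dv_apply]
  rfl

theorem mem_L_polarDiv (hx : IsSepParam K x) (f : F) : f ∈ riemannRochSpace (polarDiv K f) := by
  rw [mem_L_iff]
  right
  intro v
  rw [hx.polarDiv_apply]
  have := le_max_left (- v.ord f) 0
  linarith

/-- The polar divisor of a separating parameter has degree `[F : K(x)]`. -/
theorem degree_polarDiv [IsAlgClosed K] (hx : IsSepParam K x) :
    Divisor.degree (polarDiv K x) = (Module.finrank K⟮x⟯ F : ℤ) := by
  rw [hx.degree_eq_sum_of_subset _ hx.finite_poles.toFinset]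
  · have := hx.sum_poles
    rw [← neg_eq_iff_eq_neg, ← Finset.sum_neg_distrib] at this
    rw [← this]
    refine Finset.sum_congr rfl fun v hv => ?_
    simp only [Set.Finite.mem_toFinset, Set.mem_ofPred_eq] at hv
    rw [hx.polarDiv_apply, max_eq_left (by omega)]
  · intro v hv
    rw [Finsupp.mem_support_iff, hx.polarDiv_apply] at hv
    simp only [Set.Finite.mem_toFinset, Set.mem_ofPred_eq]
    by_contra h
    apply hv
    rw [max_eq_right (by omega)]

/-- The divisor of a separating parameter has degree `0`. -/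
theorem degree_dv_self [IsAlgClosed K] (hx : IsSepParam K x) :
    Divisor.degree (dv K x) = 0 := by
  classical
  rw [hx.degree_eq_sum_of_subset _ (hx.finite_zeros.toFinset ∪ hx.finite_poles.toFinset)]
  · rw [Finset.sum_union]
    · simp only [hx.dv_apply]
      rw [hx.sum_zeros, hx.sum_poles]
      ring
    · rw [Finset.disjoint_left]
      intro v hv hv'
      simp only [Set.Finite.mem_toFinset, Set.mem_ofPred_eq] at hv hv'
      omega
  · intro v hv
    rw [Finsupp.mem_support_iff, hx.dv_apply] at hv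
    simp only [Finset.mem_union, Set.Finite.mem_toFinset, Set.mem_ofPred_eq]
    omega

/-- Lower bound for `ℓ(l B + C)`, `B` the polar divisor of an arbitrary nonconstant `y`. -/
theorem exists_lower_bound [IsAlgClosed K] (hx : IsSepParam K x) {y : F}
    (hy : IsFiniteParam K y) :
    ∃ C : Divisor K F, 0 ≤ C ∧
      ∀ l : ℕ, (l + 1) * Module.finrank K⟮y⟯ F ≤ ell (l • polarDiv K y + C) := by
  classical
  have := hy.finite
  let u := Module.finBasis K⟮y⟯ F
  let C : Divisor K F := ∑ j, polarDiv K (u j)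
  have hC : 0 ≤ C := Finset.sum_nonneg fun j _ => polarDiv_nonneg _
  have huC : ∀ j, u j ∈ riemannRochSpace C := fun j =>
    L_mono (Finset.single_le_sum (f := fun j => polarDiv K (u j))
      (fun j _ => polarDiv_nonneg _) (Finset.mem_univ j)) (hx.mem_L_polarDiv (u j))
  refine ⟨C, hC, fun l => ?_⟩
  have hgen : Transcendental K (AdjoinSimple.gen K y) := by
    intro halg
    apply hy.transcendental
    have := halg.algebraMap (A := F)
    simpa using this
  have hb := linearIndependent_pow_of_transc (K := K) (AdjoinSimple.gen K y) hgen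
  have hb' : LinearIndependent K (fun i : Fin (l + 1) => AdjoinSimple.gen K y ^ (i : ℕ)) :=
    hb.comp _ Fin.val_injective
  have h1 := linearIndependent_smul hb' u.linearIndependent
  have h2 := finrank_span_eq_card h1
  have hfin := hx.finite_L (l • polarDiv K y + C)
  have h3 : Submodule.span K (Set.range fun p : Fin (l + 1) × Fin (Module.finrank K⟮y⟯ F) =>
      AdjoinSimple.gen K y ^ (p.1 : ℕ) • u p.2) ≤ riemannRochSpace (l • polarDiv K y + C) := by
    rw [Submodule.span_le]
    rintro _ ⟨p, rfl⟩
    have e : AdjoinSimple.gen K y ^ (p.1 : ℕ) • u p.2 = y ^ (p.1 : ℕ) * u p.2 := by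
      rw [IntermediateField.smul_def]
      simp
    show AdjoinSimple.gen K y ^ (p.1 : ℕ) • u p.2 ∈ riemannRochSpace (l • polarDiv K y + C)
    rw [e]
    refine mul_mem_L (L_mono ?_ (pow_mem_L (hx.mem_L_polarDiv y) (p.1 : ℕ))) (huC p.2)
    exact nsmul_le_nsmul_left (polarDiv_nonneg y) (Nat.lt_succ_iff.1 p.1.2)
  have h4 := Submodule.finrank_mono h3
  rw [h2] at h4
  simpa using h4

end IsSepParam

theorem ord_sub_algebraMap_of_neg (v : Place K F) {f : F} (h : v.ord f < 0) (c : K) :
    v.ord (f - algebraMap K F c) = v.ord f := by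
  have hf : f ≠ 0 := by rintro rfl; simp at h
  rcases eq_or_ne c 0 with rfl | hc
  · simp
  have hc' : - algebraMap K F c ≠ 0 := by simpa using hc
  rw [sub_eq_add_neg]
  refine Place.ord_add_eq_of_lt v hf hc' ?_
  rw [Place.ord_neg, Place.ord_algebraMap]
  exact h

/-- The Riemann genus: the maximum of `deg A + 1 - ℓ(A)`. -/
noncomputable def gR (K F : Type*) [Field K] [Field F] [Algebra K F] : ℤ :=
  sSup (Set.range fun A : Divisor K F => Divisor.degree A + 1 - (ell A : ℤ))

namespace IsSepParam

theorem exists_single_le [IsAlgClosed K] (hx : IsSepParam K x) (v : Place K F) :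
    ∃ w : F, w ≠ 0 ∧ Divisor.degree (dv K w) = 0 ∧
      Finsupp.single v 1 ≤ polarDiv K x + dv K w := by
  classical
  by_cases hv : v.ord x < 0
  · refine ⟨1, one_ne_zero, by rw [hx.dv_one, map_zero], ?_⟩
    rw [hx.dv_one, add_zero]
    intro u
    by_cases huv : u = v
    · subst huv
      rw [Finsupp.single_eq_same, hx.polarDiv_apply]
      have := le_max_left (-u.ord x) 0
      omega
    · rw [Finsupp.single_eq_of_ne huv]
      exact polarDiv_nonneg x u
  · have hxv : x ∈ v.toValuationSubring :=
      (Place.mem_iff_ord_nonneg v hx.ne_zero).2 (not_lt.1 hv)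
    obtain ⟨c, hc⟩ := hx.exists_value v hxv
    have hy := hx.sub_const c
    rcases hc with hc | hc
    · exact absurd (sub_eq_zero.2 hc) hy.ne_zero
    refine ⟨x - algebraMap K F c, hy.ne_zero, hy.degree_dv_self, ?_⟩
    intro u
    rw [Finsupp.add_apply, hx.polarDiv_apply, hx.dv_apply]
    by_cases hu : u.ord x < 0
    · have huv : u ≠ v := by rintro rfl; exact hv hu
      rw [ord_sub_algebraMap_of_neg u hu, Finsupp.single_eq_of_ne huv]
      have := le_max_left (-u.ord x) 0
      omega
    · have hxu : x ∈ u.toValuationSubring :=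
        (Place.mem_iff_ord_nonneg u hx.ne_zero).2 (not_lt.1 hu)
      have h1 : 0 ≤ u.ord (x - algebraMap K F c) :=
        Place.ord_nonneg_of_mem u (u.toValuationSubring.sub_mem hxu (u.algebraMap_mem' c))
      have h2 := le_max_right (-u.ord x) 0
      by_cases huv : u = v
      · subst huv
        rw [Finsupp.single_eq_same]
        omega
      · rw [Finsupp.single_eq_of_ne huv]
        omega

theorem exists_le_nsmul_polar_add [IsAlgClosed K] (hx : IsSepParam K x) (A : Divisor K F) :
    ∃ (l : ℕ) (w : F), w ≠ 0 ∧ Divisor.degree (dv K w) = 0 ∧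
      A ≤ l • polarDiv K x + dv K w := by
  classical
  induction A using Finsupp.induction_linear with
  | zero =>
    refine ⟨0, 1, one_ne_zero, by rw [hx.dv_one, map_zero], ?_⟩
    rw [hx.dv_one]; simp
  | add A A' ih ih' =>
    obtain ⟨l, w, hw0, hwd, hw⟩ := ih
    obtain ⟨l', w', hw0', hwd', hw'⟩ := ih'
    refine ⟨l + l', w * w', mul_ne_zero hw0 hw0', ?_, ?_⟩
    · rw [hx.dv_mul hw0 hw0', map_add, hwd, hwd', add_zero]
    · rw [hx.dv_mul hw0 hw0', add_nsmul]
      calc A + A' ≤ (l • polarDiv K x + dv K w) + (l' • polarDiv K x + dv K w') :=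
            add_le_add hw hw'
        _ = _ := by abel
  | single v m =>
    obtain ⟨w, hw0, hwd, hw⟩ := hx.exists_single_le v
    refine ⟨m.toNat, w ^ m.toNat, pow_ne_zero _ hw0, ?_, ?_⟩
    · rw [hx.dv_pow, map_nsmul, hwd, smul_zero]
    · rw [hx.dv_pow, ← nsmul_add]
      refine le_trans ?_ (nsmul_le_nsmul_right hw m.toNat)
      rw [Finsupp.smul_single]
      intro u
      by_cases huv : u = v
      · subst huv
        rw [Finsupp.single_eq_same, Finsupp.single_eq_same]
        simp only [mul_one, nsmul_eq_mul]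
        exact Int.self_le_toNat m
      · rw [Finsupp.single_eq_of_ne huv, Finsupp.single_eq_of_ne huv]

/-- Riemann's inequality, first form: `deg A - ℓ(A)` is bounded above. -/
theorem exists_riemann_bound [IsAlgClosed K] (hx : IsSepParam K x) :
    ∃ γ : ℤ, ∀ A : Divisor K F, Divisor.degree A - (ell A : ℤ) ≤ γ := by
  obtain ⟨C, -, hC⟩ := hx.exists_lower_bound hx.toIsFiniteParam
  refine ⟨Divisor.degree C - Module.finrank K⟮x⟯ F, fun A => ?_⟩
  obtain ⟨l, w, hw0, hwd, hw⟩ := hx.exists_le_nsmul_polar_add (A - C)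
  have hle : A - dv K w ≤ l • polarDiv K x + C := by
    calc A - dv K w = A - C + (C - dv K w) := by abel
      _ ≤ l • polarDiv K x + dv K w + (C - dv K w) := add_le_add_left hw _
      _ = _ := by abel
  have h1 := hx.ell_le_of_le hle
  rw [hx.ell_sub_dv hw0, map_sub, hwd, map_add, map_nsmul, hx.degree_polarDiv] at h1
  have h2 : (((l + 1) * Module.finrank K⟮x⟯ F : ℕ) : ℤ) ≤ ell (l • polarDiv K x + C) := by
    exact_mod_cast hC l
  push_cast at h2
  simp only [nsmul_eq_mul] at h1
  linarith

theorem bddAbove_gR [IsAlgClosed K] (hx : IsSepParam K x) :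
    BddAbove (Set.range fun A : Divisor K F => Divisor.degree A + 1 - (ell A : ℤ)) := by
  obtain ⟨γ, hγ⟩ := hx.exists_riemann_bound
  refine ⟨γ + 1, ?_⟩
  rintro _ ⟨A, rfl⟩
  have := hγ A
  show Divisor.degree A + 1 - (ell A : ℤ) ≤ γ + 1
  linarith

/-- **Riemann's inequality**. -/
theorem riemann_inequality [IsAlgClosed K] (hx : IsSepParam K x) (A : Divisor K F) :
    Divisor.degree A + 1 - gR K F ≤ ell A := by
  have := le_csSup hx.bddAbove_gR ⟨A, rfl⟩
  have h : Divisor.degree A + 1 - (ell A : ℤ) ≤ gR K F := this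
  linarith

theorem exists_eq_gR [IsAlgClosed K] (hx : IsSepParam K x) :
    ∃ A₀ : Divisor K F, (ell A₀ : ℤ) = Divisor.degree A₀ + 1 - gR K F := by
  obtain ⟨A₀, hA₀⟩ := Int.csSup_mem (Set.range_nonempty _) hx.bddAbove_gR
  refine ⟨A₀, ?_⟩
  have h : Divisor.degree A₀ + 1 - (ell A₀ : ℤ) = gR K F := hA₀
  linarith

theorem gR_nonneg [IsAlgClosed K] (hx : IsSepParam K x) : 0 ≤ gR K F := by
  have := hx.riemann_inequality 0
  rw [hx.ell_zero, map_zero] at this
  push_cast at this
  linarith

/-- Nonspeciality is inherited by larger divisors. -/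
theorem ell_eq_of_le [IsAlgClosed K] (hx : IsSepParam K x) {A₀ A : Divisor K F}
    (h₀ : (ell A₀ : ℤ) = Divisor.degree A₀ + 1 - gR K F) (hle : A₀ ≤ A) :
    (ell A : ℤ) = Divisor.degree A + 1 - gR K F := by
  have h1 := hx.ell_le_of_le hle
  have h2 := hx.riemann_inequality A
  linarith

/-- Principal divisors have degree `0` (any characteristic, no separability assumption). -/
theorem degree_dv [IsAlgClosed K] (hx : IsSepParam K x) (z : F) :
    Divisor.degree (dv K z) = 0 := by
  rcases eq_or_ne z 0 with rfl | hz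
  · have : dv K (0 : F) = 0 := by
      ext v
      rw [hx.dv_apply]; simp
    rw [this, map_zero]
  obtain ⟨A₀, hA₀⟩ := hx.exists_eq_gR
  have h1 := hx.ell_eq_of_le hA₀ (le_sup_left : A₀ ≤ A₀ ⊔ (A₀ + dv K z))
  have hle : A₀ ≤ A₀ ⊔ (A₀ + dv K z) - dv K z := by
    rw [le_sub_iff_add_le]
    exact le_sup_right
  have h2 := hx.ell_eq_of_le hA₀ hle
  rw [hx.ell_sub_dv hz, map_sub] at h2
  linarith

theorem hasPrincipalDivisors [IsAlgClosed K] (hx : IsSepParam K x) :
    HasPrincipalDivisors K F where
  exists_divisor f _ := ⟨dv K f, fun v => hx.dv_apply f v, hx.degree_dv f⟩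

theorem degree_eq_zero_of_isPrincipal [IsAlgClosed K] (hx : IsSepParam K x) {D : Divisor K F}
    (hD : Divisor.IsPrincipal D) : Divisor.degree D = 0 := by
  obtain ⟨f, -, rfl⟩ := hx.eq_dv_of_isPrincipal hD
  exact hx.degree_dv f

theorem degree_nonneg_of_mem_L [IsAlgClosed K] (hx : IsSepParam K x) {A : Divisor K F} {f : F}
    (hf : f ∈ riemannRochSpace A) (hf0 : f ≠ 0) : 0 ≤ Divisor.degree A := by
  rw [mem_L_iff_of_ne_zero hf0] at hf
  have h : 0 ≤ dv K f + A := fun v => by
    rw [Finsupp.add_apply, hx.dv_apply]; exact hf v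
  have := hx.degree_nonneg h
  rwa [map_add, hx.degree_dv, zero_add] at this

theorem L_eq_bot_of_degree_neg [IsAlgClosed K] (hx : IsSepParam K x) {A : Divisor K F}
    (hA : Divisor.degree A < 0) : riemannRochSpace A = ⊥ := by
  rw [eq_bot_iff]
  intro f hf
  by_contra hf0
  have := hx.degree_nonneg_of_mem_L hf hf0
  omega

theorem ell_eq_zero_of_degree_neg [IsAlgClosed K] (hx : IsSepParam K x) {A : Divisor K F}
    (hA : Divisor.degree A < 0) : ell A = 0 := by
  unfold ell
  rw [hx.L_eq_bot_of_degree_neg hA]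
  simp

theorem exists_ne_zero_mem_L_of_ell_pos {A : Divisor K F} (h : 0 < ell A) :
    ∃ f ∈ riemannRochSpace A, f ≠ 0 := by
  by_contra hcon
  push Not at hcon
  have : riemannRochSpace A = ⊥ := by
    rw [eq_bot_iff]
    intro f hf
    exact hcon f hf
  unfold ell at h
  rw [this] at h
  simp at h

/-- Every divisor of degree `≥ g` is linearly equivalent to an effective divisor. -/
theorem exists_ne_zero_mem_L [IsAlgClosed K] (hx : IsSepParam K x) {A : Divisor K F}
    (hA : gR K F ≤ Divisor.degree A) : ∃ f ∈ riemannRochSpace A, f ≠ 0 := by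
  apply exists_ne_zero_mem_L_of_ell_pos
  have := hx.riemann_inequality A
  omega

/-- `ℓ(A) ≤ deg A + 1` whenever `deg A ≥ -1`. -/
theorem ell_le_degree_add_one' [IsAlgClosed K] (hx : IsSepParam K x) {A : Divisor K F}
    (hA : -1 ≤ Divisor.degree A) : (ell A : ℤ) ≤ Divisor.degree A + 1 := by
  rcases Nat.eq_zero_or_pos (ell A) with h | h
  · rw [h]; push_cast; omega
  obtain ⟨f, hf, hf0⟩ := exists_ne_zero_mem_L_of_ell_pos h
  rw [mem_L_iff_of_ne_zero hf0] at hf
  have h0 : 0 ≤ A + dv K f := fun v => by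
    rw [Finsupp.add_apply, hx.dv_apply, add_comm]; exact hf v
  have := hx.ell_le_degree_add_one h0
  rwa [hx.ell_add_dv hf0, map_add, hx.degree_dv, add_zero] at this

/-- **Riemann's theorem**: `ℓ(A) = deg A + 1 - g` for all divisors of large degree. -/
theorem exists_riemann [IsAlgClosed K] (hx : IsSepParam K x) :
    ∃ c : ℤ, ∀ A : Divisor K F, c ≤ Divisor.degree A →
      (ell A : ℤ) = Divisor.degree A + 1 - gR K F := by
  obtain ⟨A₀, hA₀⟩ := hx.exists_eq_gR
  refine ⟨Divisor.degree A₀ + gR K F, fun A hA => ?_⟩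
  obtain ⟨z, hz, hz0⟩ := hx.exists_ne_zero_mem_L (A := A - A₀) (by rw [map_sub]; linarith)
  rw [mem_L_iff_of_ne_zero hz0] at hz
  have hle : A₀ ≤ A + dv K z := fun v => by
    have := hz v
    rw [Finsupp.sub_apply] at this
    rw [Finsupp.add_apply, hx.dv_apply]
    linarith
  have := hx.ell_eq_of_le hA₀ hle
  rwa [hx.ell_add_dv hz0, map_add, hx.degree_dv, add_zero] at this

end IsSepParam

end Fermat.Agent.RED
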