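import Fermat.Agent.S24.FF.Places

/-!
Function fields in one variable over an algebraically closed field of ANY characteristic,
with a separating finite parameter.  Port of `S24/FF/Param.lean`, `S24/FF/Places.lean`.
-/

set_option autoImplicit false
set_option linter.style.haveILetI false

open AlgebraicCurve IsDedekindDomain IntermediateField
open scoped IntermediateField.algebraAdjoinAdjoin
open Fermat.Agent.S24

namespace Fermat.Agent.RED

variable (K : Type*) {F : Type*} [Field K] [Field F] [Algebra K F]

/-- `y` is transcendental over `K` and `F` is finite separable over `K(y)`. -/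
structure IsSepParam (y : F) : Prop extends IsFiniteParam K y where
  separable : Algebra.IsSeparable K⟮y⟯ F

variable {K}
variable {y : F}

theorem IsSepParam.of_charZero [CharZero K] (hy : IsFiniteParam K y) : IsSepParam K y where
  toIsFiniteParam := hy
  separable := by
    haveI : CharZero K⟮y⟯ := charZero_of_injective_algebraMap (algebraMap K K⟮y⟯).injective
    haveI := hy.finite
    infer_instance

namespace IsSepParam

theorem isDedekindDomain (hy : IsSepParam K y) : IsDedekindDomain (intRing K y) := by
  haveI := hy.isPrincipalIdealRing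
  haveI := hy.finite
  haveI := hy.separable
  exact integralClosure.isDedekindDomain (polyRing K y) K⟮y⟯ F

theorem moduleFinite (hy : IsSepParam K y) : Module.Finite (polyRing K y) (intRing K y) := by
  haveI := hy.isPrincipalIdealRing
  haveI := hy.finite
  haveI := hy.separable
  exact IsIntegralClosure.finite (polyRing K y) K⟮y⟯ F (intRing K y)

theorem finiteType_intRing (hy : IsSepParam K y) : Algebra.FiniteType K (intRing K y) := by
  haveI := hy.moduleFinite
  haveI := IsFiniteParam.finiteType_polyRing (K := K) (y := y)
  haveI := IsFiniteParam.isScalarTower_polyRing_intRing (K := K) (y := y)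
  exact Algebra.FiniteType.trans (S := polyRing K y) inferInstance inferInstance

/-- a proper valuation subring containing `K` and `y` is the ring of a place. -/
theorem exists_place_eq (hy : IsSepParam K y) (O : ValuationSubring F)
    (hK : ∀ a : K, algebraMap K F a ∈ O) (hyO : y ∈ O) (hO : O ≠ ⊤) :
    ∃ v : Place K F, v.toValuationSubring = O := by
  haveI := hy.isDedekindDomain
  haveI := hy.isFractionRing
  haveI := IsFiniteParam.isScalarTower_intRing (K := K) (y := y)
  obtain ⟨w, hw⟩ := exists_valuationSubring_eq (R := intRing K y) O hO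
    (IsFiniteParam.intRing_le O hK hyO)
  exact ⟨Place.ofHeightOneSpectrum w, hw.symm⟩

/-- the place attached to a prime of the integral closure of `K[y]`. -/
noncomputable def place (hy : IsSepParam K y) (w : HeightOneSpectrum (intRing K y)) :
    Place K F :=
  haveI := hy.isDedekindDomain
  haveI := hy.isFractionRing
  haveI := IsFiniteParam.isScalarTower_intRing (K := K) (y := y)
  Place.ofHeightOneSpectrum w

theorem place_injective (hy : IsSepParam K y) : Function.Injective hy.place := by
  haveI := hy.isDedekindDomain
  haveI := hy.isFractionRing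
  haveI := IsFiniteParam.isScalarTower_intRing (K := K) (y := y)
  exact ofHeightOneSpectrum_injective

theorem exists_eq_place (hy : IsSepParam K y) (v : Place K F) (hv : y ∈ v.toValuationSubring) :
    ∃ w, v = hy.place w := by
  haveI := hy.isDedekindDomain
  haveI := hy.isFractionRing
  haveI := IsFiniteParam.isScalarTower_intRing (K := K) (y := y)
  exact exists_eq_ofHeightOneSpectrum v (IsFiniteParam.intRing_le _ v.algebraMap_mem' hv)

theorem intRing_mem_place (hy : IsSepParam K y) (w : HeightOneSpectrum (intRing K y))
    (b : intRing K y) : (b : F) ∈ (hy.place w).toValuationSubring := by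
  haveI := hy.isDedekindDomain
  haveI := hy.isFractionRing
  haveI := IsFiniteParam.isScalarTower_intRing (K := K) (y := y)
  exact algebraMap_mem_ofHeightOneSpectrum w b

theorem mem_place (hy : IsSepParam K y) (w : HeightOneSpectrum (intRing K y)) :
    y ∈ (hy.place w).toValuationSubring :=
  hy.intRing_mem_place w (IsFiniteParam.gen' K y)

theorem gen'_ne_zero (hy : IsSepParam K y) : IsFiniteParam.gen' K y ≠ 0 := by
  intro h
  apply hy.ne_zero
  rw [← IsFiniteParam.algebraMap_gen' (K := K) (y := y), h, map_zero]

theorem pos_ord_place_iff_mem (hy : IsSepParam K y) (w : HeightOneSpectrum (intRing K y))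
    {b : intRing K y} (hb : b ≠ 0) : 0 < (hy.place w).ord (b : F) ↔ b ∈ w.asIdeal := by
  haveI := hy.isDedekindDomain
  haveI := hy.isFractionRing
  haveI := IsFiniteParam.isScalarTower_intRing (K := K) (y := y)
  exact pos_ord_iff_mem (K := K) (F := F) w hb

theorem pos_ord_place_iff (hy : IsSepParam K y) (w : HeightOneSpectrum (intRing K y)) :
    0 < (hy.place w).ord y ↔ IsFiniteParam.gen' K y ∈ w.asIdeal := by
  have h := hy.pos_ord_place_iff_mem w hy.gen'_ne_zero
  have e : ((IsFiniteParam.gen' K y : intRing K y) : F) = y :=
    IsFiniteParam.algebraMap_gen' (K := K) (y := y)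
  rwa [e] at h

theorem finite_primes_of_ne_zero (hy : IsSepParam K y) {b : intRing K y} (hb : b ≠ 0) :
    {w : HeightOneSpectrum (intRing K y) | b ∈ w.asIdeal}.Finite := by
  haveI := hy.isDedekindDomain
  have := Ideal.finite_factors (I := Ideal.span {b})
    (fun h => hb (Ideal.span_singleton_eq_bot.1 h))
  refine this.subset ?_
  intro w hw
  exact Ideal.dvd_span_singleton.2 hw

theorem finite_primes (hy : IsSepParam K y) :
    {w : HeightOneSpectrum (intRing K y) | IsFiniteParam.gen' K y ∈ w.asIdeal}.Finite :=
  hy.finite_primes_of_ne_zero hy.gen'_ne_zero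

theorem zeros_eq_image (hy : IsSepParam K y) :
    {v : Place K F | 0 < v.ord y} =
      hy.place '' {w : HeightOneSpectrum (intRing K y) | IsFiniteParam.gen' K y ∈ w.asIdeal} := by
  ext v
  constructor
  · intro hv
    have hv' : 0 < v.ord y := hv
    obtain ⟨w, rfl⟩ := hy.exists_eq_place v ((Place.mem_iff_ord_nonneg v hy.ne_zero).2 hv'.le)
    exact ⟨w, (hy.pos_ord_place_iff w).1 hv', rfl⟩
  · rintro ⟨w, hw, rfl⟩
    exact (hy.pos_ord_place_iff w).2 hw

/-- the zeros of `y` form a finite set. -/
theorem finite_zeros (hy : IsSepParam K y) : {v : Place K F | 0 < v.ord y}.Finite := by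
  rw [hy.zeros_eq_image]
  exact hy.finite_primes.image _

/-- the zeros of `y`, counted with multiplicity. -/
theorem sum_zeros [IsAlgClosed K] (hy : IsSepParam K y) :
    ∑ v ∈ hy.finite_zeros.toFinset, v.ord y = (Module.finrank K⟮y⟯ F : ℤ) := by
  classical
  haveI := hy.isPrincipalIdealRing
  haveI := hy.finite
  haveI := hy.isDedekindDomain
  haveI := hy.isFractionRing
  haveI := IsFiniteParam.isScalarTower_intRing (K := K) (y := y)
  haveI := IsFiniteParam.isScalarTower_polyRing_intRing (K := K) (y := y)
  haveI := hy.moduleFinite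
  haveI := hy.finiteType_intRing
  have h := sum_ord_eq_finrank (K := K) (F := F) K⟮y⟯ (B := intRing K y) (IsFiniteParam.gen K y)
    hy.isMaximal_span_gen (fun h => hy.ne_zero (congrArg Subtype.val h))
    hy.finite_primes.toFinset (fun w => hy.finite_primes.mem_toFinset)
  rw [← h]
  have h2 : hy.finite_zeros.toFinset = hy.finite_primes.toFinset.image hy.place := by
    ext v
    simp only [Set.Finite.mem_toFinset, Finset.mem_image]
    rw [hy.zeros_eq_image]
    simp
  rw [h2, Finset.sum_image (fun _ _ _ _ h => hy.place_injective h)]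
  rfl

theorem ord_place_eq_zero (hy : IsSepParam K y) (w : HeightOneSpectrum (intRing K y))
    {b : intRing K y} (hb : b ∉ w.asIdeal) : (hy.place w).ord (b : F) = 0 := by
  have hb0 : b ≠ 0 := fun h => hb (h ▸ w.asIdeal.zero_mem)
  have h1 := hy.pos_ord_place_iff_mem w hb0
  have h2 := Place.ord_nonneg_of_mem _ (hy.intRing_mem_place w b)
  have h3 : ¬ 0 < (hy.place w).ord (b : F) := fun h => hb (h1.1 h)
  exact le_antisymm (not_lt.1 h3) h2

theorem sub_const (hy : IsSepParam K y) (c : K) : IsSepParam K (y - algebraMap K F c) where
  toIsFiniteParam := hy.toIsFiniteParam.sub_const c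
  separable := by
    rw [IsFiniteParam.adjoin_sub_const]
    exact hy.separable

theorem inv (hy : IsSepParam K y) : IsSepParam K y⁻¹ where
  toIsFiniteParam := hy.toIsFiniteParam.inv
  separable := by
    rw [IsFiniteParam.adjoin_inv]
    exact hy.separable

/-- the fibre of `y` over `c` is finite. -/
theorem finite_fibre (hy : IsSepParam K y) (c : K) :
    {v : Place K F | 0 < v.ord (y - algebraMap K F c)}.Finite :=
  (hy.sub_const c).finite_zeros

theorem sum_fibre [IsAlgClosed K] (hy : IsSepParam K y) (c : K) :
    ∑ v ∈ (hy.finite_fibre c).toFinset, v.ord (y - algebraMap K F c) =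
      (Module.finrank K⟮y⟯ F : ℤ) := by
  rw [← IsFiniteParam.finrank_sub_const y c]
  exact (hy.sub_const c).sum_zeros

theorem finite_poles (hy : IsSepParam K y) : {v : Place K F | v.ord y < 0}.Finite := by
  have := hy.inv.finite_zeros
  simpa [Place.ord_inv] using this

theorem sum_poles [IsAlgClosed K] (hy : IsSepParam K y) :
    ∑ v ∈ hy.finite_poles.toFinset, v.ord y = -(Module.finrank K⟮y⟯ F : ℤ) := by
  rw [← IsFiniteParam.finrank_inv y, ← hy.inv.sum_zeros, ← Finset.sum_neg_distrib]
  refine Finset.sum_congr ?_ ?_
  · ext v
    simp [Place.ord_inv]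
  · intro v _
    rw [Place.ord_inv, neg_neg]

theorem exists_value [IsAlgClosed K] (hy : IsSepParam K y) (v : Place K F) {f : F}
    (hf : f ∈ v.toValuationSubring) :
    ∃ c : K, f = algebraMap K F c ∨ 0 < v.ord (f - algebraMap K F c) := by
  have key : ∀ {z : F} (hz : IsSepParam K z), z ∈ v.toValuationSubring →
      ∃ c : K, f = algebraMap K F c ∨ 0 < v.ord (f - algebraMap K F c) := by
    intro z hz hzv
    haveI := hz.isDedekindDomain
    haveI := hz.isFractionRing
    haveI := IsFiniteParam.isScalarTower_intRing (K := K) (y := z)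
    haveI := hz.finiteType_intRing
    obtain ⟨w, rfl⟩ := hz.exists_eq_place v hzv
    exact exists_value_ofHeightOneSpectrum (K := K) w hf
  rcases v.toValuationSubring.mem_or_inv_mem y with h | h
  · exact key hy h
  · exact key hy.inv h

theorem bijective_algebraMap_residueField [IsAlgClosed K] (hy : IsSepParam K y)
    (v : Place K F) : Function.Bijective (algebraMap K v.ResidueField) := by
  refine ⟨(algebraMap K v.ResidueField).injective, ?_⟩
  intro x
  obtain ⟨f, rfl⟩ := IsLocalRing.residue_surjective x
  obtain ⟨c, hc⟩ := hy.exists_value v f.2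
  refine ⟨c, ?_⟩
  have h1 : algebraMap K v.ResidueField c =
      IsLocalRing.residue _ (algebraMap K v.toValuationSubring c) := rfl
  rw [h1]
  rcases hc with hc | hc
  · congr 1
    exact Subtype.ext hc.symm
  · symm
    rw [← sub_eq_zero, ← map_sub, IsLocalRing.residue_eq_zero_iff, IsLocalRing.mem_maximalIdeal,
      mem_nonunits_iff]
    intro hu
    have := v.ord_coe_unit hu.unit
    rw [IsUnit.unit_spec] at this
    have h2 : ((f - algebraMap K v.toValuationSubring c : v.toValuationSubring) : F) =
        (f : F) - algebraMap K F c := rfl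
    rw [h2] at this
    omega

theorem deg_eq_one [IsAlgClosed K] (hy : IsSepParam K y) (v : Place K F) : v.deg = 1 := by
  unfold Place.deg
  rw [finrank_eq_one_iff_of_nonzero' (1 : v.ResidueField) one_ne_zero]
  intro x
  obtain ⟨c, rfl⟩ := (hy.bijective_algebraMap_residueField v).2 x
  exact ⟨c, by rw [Algebra.smul_def, mul_one]⟩

end IsSepParam

end Fermat.Agent.RED
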